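/-
S55 project, leaf 15-IDELE, abstract half (helper56), file 1: elementary low-degree Tate groups of a
`G`-module `A` (`[AddCommGroup A] [DistribMulAction G A]`, `G` a finite group), Mathlib only.

* `fixed G A`      : the invariants `A^G` (an `AddSubgroup`);
* `normMap G A`     : the norm `N_G : A →+ A`, `a ↦ ∑ g, g • a`;
* `aug G A`      : `I_G A`, the subgroup generated by the `g • a - a`;
* `H0hat G A`    : `A^G / N_G A`;    `Hm1hat G A` : `ker N_G / I_G A`;
* `H0Trivial`, `Hm1Trivial`, `H1Trivial`, `H2Trivial` : vanishing predicates (the latter two via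
  Mathlib's `groupCohomology.IsCocycle₁/₂`, `IsCoboundary₁/₂`);
* equivariant maps `φ : A →+ B` induce maps on `H0hat`, `Hm1hat` (`H0hat.map`, `Hm1hat.map`), and
  equivariant isomorphisms induce isomorphisms (`H0hat.congr`, `Hm1hat.congr`).
-/
import Mathlib

set_option autoImplicit false
set_option linter.unusedSectionVars false

open scoped BigOperators

namespace Fermat.Agent.S55.Idele56

open groupCohomology

section Defs

variable (G : Type*) [Group G] (A : Type*) [AddCommGroup A] [DistribMulAction G A]

/-- the invariants `A^G` -/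
def fixed : AddSubgroup A where
  carrier := {a | ∀ g : G, g • a = a}
  zero_mem' g := smul_zero g
  add_mem' ha hb g := by rw [smul_add, ha g, hb g]
  neg_mem' ha g := by rw [smul_neg, ha g]

variable {G A} in
theorem mem_fixed {a : A} : a ∈ fixed G A ↔ ∀ g : G, g • a = a := Iff.rfl

/-- `I_G A`, generated by the `g • a - a` -/
def aug : AddSubgroup A := AddSubgroup.closure {x | ∃ (g : G) (a : A), x = g • a - a}

variable {G A} in
theorem smul_sub_mem_aug (g : G) (a : A) : g • a - a ∈ aug G A :=
  AddSubgroup.subset_closure ⟨g, a, rfl⟩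

variable [Fintype G]

/-- the norm `N_G` -/
def normMap : A →+ A := ∑ g : G, DistribSMul.toAddMonoidHom A g

variable {G A} in
theorem normMap_apply (a : A) : normMap G A a = ∑ g : G, g • a := by
  simp [normMap]

variable {G A} in
theorem smul_normMap (g : G) (a : A) : g • normMap G A a = normMap G A a := by
  rw [normMap_apply, Finset.smul_sum]
  exact Fintype.sum_equiv (Equiv.mulLeft g) _ _ fun h => by simp [mul_smul]

variable {G A} in
theorem normMap_smul (g : G) (a : A) : normMap G A (g • a) = normMap G A a := by
  rw [normMap_apply, normMap_apply]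
  exact Fintype.sum_equiv (Equiv.mulRight g) _ _ fun h => by simp [mul_smul]

variable {G A} in
theorem normMap_mem_fixed (a : A) : normMap G A a ∈ fixed G A := fun g => smul_normMap g a

theorem range_normMap_le_fixed : (normMap G A).range ≤ fixed G A := by
  rintro _ ⟨a, rfl⟩
  exact normMap_mem_fixed a

theorem aug_le_ker_normMap : aug G A ≤ (normMap G A).ker := by
  rw [aug, AddSubgroup.closure_le]
  rintro _ ⟨g, a, rfl⟩
  show normMap G A (g • a - a) = 0
  rw [map_sub, normMap_smul, sub_self]

/-- `Ĥ⁰(G, A) = A^G / N_G A` -/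
abbrev H0hat : Type _ := ↥(fixed G A) ⧸ ((normMap G A).range.addSubgroupOf (fixed G A))

/-- `Ĥ⁻¹(G, A) = ker N_G / I_G A` -/
abbrev Hm1hat : Type _ := ↥(normMap G A).ker ⧸ ((aug G A).addSubgroupOf (normMap G A).ker)

/-- `Ĥ⁰(G, A) = 0` -/
def H0Trivial : Prop := ∀ a ∈ fixed G A, ∃ b : A, normMap G A b = a

/-- `Ĥ⁻¹(G, A) = 0` -/
def Hm1Trivial : Prop := ∀ a : A, normMap G A a = 0 → a ∈ aug G A

theorem h0Trivial_iff_subsingleton : H0Trivial G A ↔ Subsingleton (H0hat G A) := by
  rw [QuotientAddGroup.subsingleton_iff]
  constructor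
  · intro h
    rw [eq_top_iff]
    rintro ⟨a, ha⟩ -
    obtain ⟨b, hb⟩ := h a ha
    exact ⟨b, hb⟩
  · intro h a ha
    have : (⟨a, ha⟩ : fixed G A) ∈ (normMap G A).range.addSubgroupOf (fixed G A) := by rw [h]; trivial
    exact this

theorem hm1Trivial_iff_subsingleton : Hm1Trivial G A ↔ Subsingleton (Hm1hat G A) := by
  rw [QuotientAddGroup.subsingleton_iff]
  constructor
  · intro h
    rw [eq_top_iff]
    rintro ⟨a, ha⟩ -
    exact h a ha
  · intro h a ha
    have : (⟨a, ha⟩ : (normMap G A).ker) ∈ (aug G A).addSubgroupOf (normMap G A).ker := by rw [h]; trivial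
    exact this

end Defs

section Cocycles

variable (G : Type*) [Group G] (A : Type*) [AddCommGroup A] [DistribMulAction G A]

/-- `H¹(G, A) = 0` -/
def H1Trivial : Prop := ∀ c : G → A, IsCocycle₁ c → IsCoboundary₁ c

/-- `H²(G, A) = 0` -/
def H2Trivial : Prop := ∀ c : G × G → A, IsCocycle₂ c → IsCoboundary₂ c

end Cocycles

/-! ### Functoriality -/

section Map

variable {G : Type*} [Group G] [Fintype G] {A B : Type*} [AddCommGroup A] [DistribMulAction G A]
  [AddCommGroup B] [DistribMulAction G B] (φ : A →+ B) (hφ : ∀ (g : G) (a : A), φ (g • a) = g • φ a)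

include hφ

theorem map_mem_fixed {a : A} (ha : a ∈ fixed G A) : φ a ∈ fixed G B := fun g => by
  rw [← hφ, ha g]

theorem map_normMap (a : A) : φ (normMap G A a) = normMap G B (φ a) := by
  rw [normMap_apply, normMap_apply, map_sum]
  exact Finset.sum_congr rfl fun g _ => hφ g a

theorem map_mem_aug {a : A} (ha : a ∈ aug G A) : φ a ∈ aug G B := by
  induction ha using AddSubgroup.closure_induction with
  | mem x hx =>
    obtain ⟨g, a, rfl⟩ := hx
    rw [map_sub, hφ]
    exact smul_sub_mem_aug g (φ a)
  | zero => rw [map_zero]; exact zero_mem _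
  | add x y _ _ hx hy => rw [map_add]; exact add_mem hx hy
  | neg x _ hx => rw [map_neg]; exact neg_mem hx

/-- the map induced on `Ĥ⁰` by an equivariant homomorphism -/
def H0hat.map : H0hat G A →+ H0hat G B :=
  QuotientAddGroup.map _ _
    ((φ.comp (fixed G A).subtype).codRestrict (fixed G B) fun a => map_mem_fixed φ hφ a.2) (by
      rintro ⟨a, ha⟩ ⟨b, hb⟩
      exact ⟨φ b, by rw [← map_normMap φ hφ]; exact congrArg φ hb⟩)

/-- the map induced on `Ĥ⁻¹` by an equivariant homomorphism -/
def Hm1hat.map : Hm1hat G A →+ Hm1hat G B :=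
  QuotientAddGroup.map _ _
    ((φ.comp (normMap G A).ker.subtype).codRestrict (normMap G B).ker fun a => by
      show normMap G B (φ a) = 0
      rw [← map_normMap φ hφ, show normMap G A (a : A) = 0 from a.2, map_zero]) (by
      rintro ⟨a, ha⟩ h
      exact map_mem_aug φ hφ h)

end Map

theorem symm_equivariant {G : Type*} [Monoid G] {A B : Type*} [AddCommGroup A]
    [DistribMulAction G A] [AddCommGroup B] [DistribMulAction G B] (e : A ≃+ B)
    (he : ∀ (g : G) (a : A), e (g • a) = g • e a) (g : G) (b : B) :
    e.symm (g • b) = g • e.symm b := by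
  apply e.injective
  rw [he, e.apply_symm_apply, e.apply_symm_apply]

section Congr

variable {G : Type*} [Group G] [Fintype G] {A B : Type*} [AddCommGroup A] [DistribMulAction G A]
  [AddCommGroup B] [DistribMulAction G B] (e : A ≃+ B) (he : ∀ (g : G) (a : A), e (g • a) = g • e a)

include he

/-- equivariant isomorphisms induce isomorphisms on `Ĥ⁰` -/
def H0hat.congr : H0hat G A ≃+ H0hat G B where
  __ := H0hat.map (e : A →+ B) he
  invFun := H0hat.map (e.symm : B →+ A) (symm_equivariant e he)
  left_inv x := by
    induction x using QuotientAddGroup.induction_on with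
    | H a =>
      show (QuotientAddGroup.mk _ : H0hat G A) = QuotientAddGroup.mk a
      congr 1
      exact Subtype.ext (e.symm_apply_apply a)
  right_inv x := by
    induction x using QuotientAddGroup.induction_on with
    | H a =>
      show (QuotientAddGroup.mk _ : H0hat G B) = QuotientAddGroup.mk a
      congr 1
      exact Subtype.ext (e.apply_symm_apply a)

/-- equivariant isomorphisms induce isomorphisms on `Ĥ⁻¹` -/
def Hm1hat.congr : Hm1hat G A ≃+ Hm1hat G B where
  __ := Hm1hat.map (e : A →+ B) he
  invFun := Hm1hat.map (e.symm : B →+ A) (symm_equivariant e he)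
  left_inv x := by
    induction x using QuotientAddGroup.induction_on with
    | H a =>
      show (QuotientAddGroup.mk _ : Hm1hat G A) = QuotientAddGroup.mk a
      congr 1
      exact Subtype.ext (e.symm_apply_apply a)
  right_inv x := by
    induction x using QuotientAddGroup.induction_on with
    | H a =>
      show (QuotientAddGroup.mk _ : Hm1hat G B) = QuotientAddGroup.mk a
      congr 1
      exact Subtype.ext (e.apply_symm_apply a)

theorem h0Trivial_congr : H0Trivial G A ↔ H0Trivial G B := by
  rw [h0Trivial_iff_subsingleton, h0Trivial_iff_subsingleton]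
  exact (H0hat.congr e he).toEquiv.subsingleton_congr

theorem hm1Trivial_congr : Hm1Trivial G A ↔ Hm1Trivial G B := by
  rw [hm1Trivial_iff_subsingleton, hm1Trivial_iff_subsingleton]
  exact (Hm1hat.congr e he).toEquiv.subsingleton_congr

end Congr

end Fermat.Agent.S55.Idele56
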