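/-
S55 project, leaf 15-IDELE, abstract half (helper56), file 2: the coinduced module and elementary
low-degree Shapiro lemmas with explicit maps (Mathlib only).

`G` a group, `D : Subgroup G`, `A` a `D`-module.  `coindFun D A = {f : G → A | f (d * g) = d • f g}`
with `G` acting by right translation `(g • f) x = f (x * g)`.
-/
import Fermat.Agent.S55.Idele56.Basic

set_option autoImplicit false
set_option linter.unusedSectionVars false

open scoped BigOperators

namespace Fermat.Agent.S55.Idele56

open groupCohomology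

section Coind

variable {G : Type*} [Group G] (D : Subgroup G) (A : Type*) [AddCommGroup A] [DistribMulAction D A]

/-- the coinduced module: functions `f : G → A` with `f (d * g) = d • f g` -/
def coindFun : AddSubgroup (G → A) where
  carrier := {f | ∀ (d : D) (g : G), f ((d : G) * g) = d • f g}
  zero_mem' d g := by simp
  add_mem' hf hh d g := by simp [hf d g, hh d g]
  neg_mem' hf d g := by simp [hf d g]

variable {D A}

theorem mem_coindFun {f : G → A} :
    f ∈ coindFun D A ↔ ∀ (d : D) (g : G), f ((d : G) * g) = d • f g := Iff.rfl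

theorem coindFun_apply_mul (f : coindFun D A) (d : D) (g : G) :
    f.1 ((d : G) * g) = d • f.1 g := f.2 d g

theorem coindFun_apply_coe (f : coindFun D A) (d : D) : f.1 (d : G) = d • f.1 1 := by
  simpa using f.2 d 1

instance : SMul G (coindFun D A) :=
  ⟨fun g f => ⟨fun x => f.1 (x * g), fun d x => by
    show f.1 ((d : G) * x * g) = d • f.1 (x * g)
    rw [mul_assoc]; exact f.2 d (x * g)⟩⟩

theorem coind_smul_apply (g : G) (f : coindFun D A) (x : G) : (g • f).1 x = f.1 (x * g) := rfl

instance : DistribMulAction G (coindFun D A) where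
  one_smul f := Subtype.ext (funext fun x => by simp [coind_smul_apply])
  mul_smul g h f := Subtype.ext (funext fun x => by simp [coind_smul_apply, mul_assoc])
  smul_zero g := Subtype.ext (funext fun x => rfl)
  smul_add g f₁ f₂ := Subtype.ext (funext fun x => rfl)

theorem coindFun_ext {f h : coindFun D A} (H : ∀ x, f.1 x = h.1 x) : f = h :=
  Subtype.ext (funext H)

@[simp] theorem coindFun_zero_apply (x : G) : (0 : coindFun D A).1 x = 0 := rfl
@[simp] theorem coindFun_add_apply (f h : coindFun D A) (x : G) : (f + h).1 x = f.1 x + h.1 x := rfl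
@[simp] theorem coindFun_neg_apply (f : coindFun D A) (x : G) : (-f).1 x = -f.1 x := rfl
@[simp] theorem coindFun_sub_apply (f h : coindFun D A) (x : G) : (f - h).1 x = f.1 x - h.1 x := rfl

/-- evaluation at `x` as an additive map -/
def evAt (x : G) : coindFun D A →+ A where
  toFun f := f.1 x
  map_zero' := rfl
  map_add' _ _ := rfl

@[simp] theorem evAt_apply (x : G) (f : coindFun D A) : evAt x f = f.1 x := rfl

theorem coindFun_sum_apply {ι : Type*} (s : Finset ι) (F : ι → coindFun D A) (x : G) :
    (∑ i ∈ s, F i).1 x = ∑ i ∈ s, (F i).1 x := by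
  simp [← evAt_apply]

/-- evaluation at `1` -/
def ev1 : coindFun D A →+ A := evAt 1

@[simp] theorem ev1_apply (f : coindFun D A) : ev1 f = f.1 1 := rfl

theorem ev1_smul (d : D) (f : coindFun D A) : ev1 ((d : G) • f) = d • ev1 f := by
  simp only [ev1_apply, coind_smul_apply, one_mul]
  exact coindFun_apply_coe f d

/-! ### functoriality in `A` -/

section Functorial

variable {B : Type*} [AddCommGroup B] [DistribMulAction D B] (φ : A →+ B)
  (hφ : ∀ (d : D) (a : A), φ (d • a) = d • φ a)

/-- the map induced on coinduced modules by a `D`-equivariant map -/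
def coindMap : coindFun D A →+ coindFun D B where
  toFun f := ⟨fun x => φ (f.1 x), fun d g => by
    show φ (f.1 ((d : G) * g)) = d • φ (f.1 g)
    rw [f.2 d g, hφ]⟩
  map_zero' := coindFun_ext fun x => by simp
  map_add' f h := coindFun_ext fun x => by simp

@[simp] theorem coindMap_apply (f : coindFun D A) (x : G) : (coindMap φ hφ f).1 x = φ (f.1 x) := rfl

theorem coindMap_smul (g : G) (f : coindFun D A) : coindMap φ hφ (g • f) = g • coindMap φ hφ f :=
  coindFun_ext fun _ => rfl

theorem coindMap_injective (h : Function.Injective φ) : Function.Injective (coindMap φ hφ) := by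
  intro f₁ f₂ H
  refine coindFun_ext fun x => h ?_
  have := congrArg (fun F : coindFun D B => F.1 x) H
  simpa using this

end Functorial

/-- an equivariant isomorphism induces an isomorphism of coinduced modules -/
def coindCongr {B : Type*} [AddCommGroup B] [DistribMulAction D B] (e : A ≃+ B)
    (he : ∀ (d : D) (a : A), e (d • a) = d • e a) : coindFun D A ≃+ coindFun D B where
  __ := coindMap (e : A →+ B) he
  invFun := coindMap (e.symm : B →+ A) (symm_equivariant e he)
  left_inv f := coindFun_ext fun x => e.symm_apply_apply _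
  right_inv f := coindFun_ext fun x => e.apply_symm_apply _

theorem coindCongr_smul {B : Type*} [AddCommGroup B] [DistribMulAction D B] (e : A ≃+ B)
    (he : ∀ (d : D) (a : A), e (d • a) = d • e a) (g : G) (f : coindFun D A) :
    coindCongr e he (g • f) = g • coindCongr e he f :=
  coindFun_ext fun _ => rfl

/-! ### invariants -/

/-- the constant function with value an invariant element -/
def constFun : fixed D A →+ coindFun D A where
  toFun a := ⟨fun _ => a.1, fun d _ => (a.2 d).symm⟩
  map_zero' := rfl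
  map_add' _ _ := rfl

@[simp] theorem constFun_apply (a : fixed D A) (x : G) : (constFun a).1 x = a.1 := rfl

theorem constFun_mem_fixed (a : fixed D A) : constFun a ∈ fixed G (coindFun D A) := fun _ =>
  coindFun_ext fun _ => rfl

theorem apply_eq_of_mem_fixed {f : coindFun D A} (hf : f ∈ fixed G (coindFun D A)) (x : G) :
    f.1 x = f.1 1 := by
  have := congrArg (fun F : coindFun D A => F.1 1) (hf x)
  simpa [coind_smul_apply] using this

theorem ev1_mem_fixed {f : coindFun D A} (hf : f ∈ fixed G (coindFun D A)) :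
    f.1 1 ∈ fixed D A := fun d => by
  rw [← coindFun_apply_coe, apply_eq_of_mem_fixed hf]

/-- Shapiro in degree `0`: `(coind A)^G ≃ A^D`, `f ↦ f 1` -/
def fixedEquiv : fixed G (coindFun D A) ≃+ fixed D A where
  toFun f := ⟨f.1.1 1, ev1_mem_fixed f.2⟩
  invFun a := ⟨constFun a, constFun_mem_fixed a⟩
  left_inv f := Subtype.ext (coindFun_ext fun x => (apply_eq_of_mem_fixed f.2 x).symm)
  right_inv a := rfl
  map_add' _ _ := rfl

@[simp] theorem fixedEquiv_apply_coe (f : fixed G (coindFun D A)) :
    (fixedEquiv f : A) = f.1.1 1 := rfl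

@[simp] theorem fixedEquiv_symm_apply_apply (a : fixed D A) (x : G) :
    ((fixedEquiv (G := G)).symm a).1.1 x = a.1 := rfl

end Coind

/-! ### right coset representatives -/

section Cosets

variable {G : Type*} [Group G] {D : Subgroup G}

/-- the chosen representative `sec q = (q.out)⁻¹` of the right coset of `D` corresponding to
`q : G ⧸ D` (via inversion) -/
noncomputable def sec (q : G ⧸ D) : G := (q.out)⁻¹

/-- the right-coset class of `x`, as the element `⟦x⁻¹⟧` of `G ⧸ D` -/
def cl (x : G) : G ⧸ D := QuotientGroup.mk x⁻¹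

theorem mul_out_cl_mem (x : G) : x * (cl (D := D) x).out ∈ D := by
  obtain ⟨h, hh⟩ := QuotientGroup.mk_out_eq_mul D x⁻¹
  rw [cl, hh, mul_inv_cancel_left]
  exact h.2

/-- the `D`-part of `x`: `x = dpart x * sec (cl x)` -/
noncomputable def dpart (x : G) : D := ⟨x * (cl (D := D) x).out, mul_out_cl_mem x⟩

theorem dpart_mul_sec (x : G) : (dpart (D := D) x : G) * sec (cl (D := D) x) = x := by
  simp [dpart, sec]

theorem cl_mul_left (d : D) (x : G) : cl (D := D) ((d : G) * x) = cl x := by
  simp only [cl, mul_inv_rev]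
  exact QuotientGroup.mk_mul_of_mem _ (inv_mem d.2)

theorem cl_sec (q : G ⧸ D) : cl (sec q) = q := by
  simp [cl, sec]

theorem dpart_mul_left (d : D) (x : G) : dpart ((d : G) * x) = d * dpart x := by
  ext
  simp [dpart, cl_mul_left, mul_assoc]

theorem dpart_sec (q : G ⧸ D) : dpart (D := D) (sec q) = 1 := by
  ext
  have h : (cl (D := D) (sec q)).out = q.out := by rw [cl_sec]
  simp only [dpart, h]
  simp [sec]

theorem cl_eq_iff {x y : G} : cl (D := D) x = cl y ↔ y * x⁻¹ ∈ D := by
  rw [cl, cl, QuotientGroup.eq, inv_inv, ← inv_mem_iff (x := y * x⁻¹), mul_inv_rev, inv_inv]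

theorem cl_eq_cl_one_iff {x : G} : cl (D := D) x = cl 1 ↔ x ∈ D := by
  rw [eq_comm, cl_eq_iff, inv_one, mul_one]

/-- `G ≃ (G ⧸ D) × D`, `x = d * sec q` -/
noncomputable def cosetEquiv : (G ⧸ D) × D ≃ G where
  toFun p := (p.2 : G) * sec p.1
  invFun x := (cl x, dpart x)
  left_inv p := by
    ext
    · simp [cl_mul_left, cl_sec]
    · simp [dpart_mul_left, dpart_sec]
  right_inv x := dpart_mul_sec x

theorem cl_mul_right (x g : G) : cl (D := D) (x * g) = g⁻¹ • cl x := by
  simp only [cl, mul_inv_rev]
  rfl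

end Cosets

/-! ### the transfer map `tr` and extension by zero `iota` -/

section Transfer

variable {G : Type*} [Group G] {D : Subgroup G} {A : Type*} [AddCommGroup A] [DistribMulAction D A]

section

variable [Finite G]

/-- `tr f = ∑_{q : G ⧸ D} f (sec q)` -/
noncomputable def tr : coindFun D A →+ A :=
  letI := Fintype.ofFinite (G ⧸ D)
  ∑ q : G ⧸ D, evAt (sec q)

theorem tr_apply [Fintype (G ⧸ D)] (f : coindFun D A) : tr f = ∑ q : G ⧸ D, f.1 (sec q) := by
  rw [tr, AddMonoidHom.finset_sum_apply]
  simp only [evAt_apply]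
  exact Finset.sum_congr (by congr!) fun _ _ => rfl

end

open Classical in
/-- extension by zero: `iota a x = x • a` for `x ∈ D`, and `0` otherwise -/
noncomputable def iota : A →+ coindFun D A where
  toFun a := ⟨fun x => if h : x ∈ D then (⟨x, h⟩ : D) • a else 0, fun d g => by
    by_cases hg : g ∈ D
    · have hdg : (d : G) * g ∈ D := D.mul_mem d.2 hg
      simp only [hdg, hg, dif_pos, ← mul_smul]
      rfl
    · have hdg : (d : G) * g ∉ D := fun h => hg ((D.mul_mem_cancel_left d.2).1 h)
      simp only [hdg, hg, dif_neg, not_false_eq_true, smul_zero]⟩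
  map_zero' := coindFun_ext fun x => by
    by_cases hx : x ∈ D <;> simp [hx]
  map_add' a b := coindFun_ext fun x => by
    by_cases hx : x ∈ D <;> simp [hx]

theorem iota_apply_coe (a : A) (d : D) : (iota (D := D) a).1 (d : G) = d • a := by
  simp [iota]

theorem iota_apply_of_mem (a : A) {x : G} (hx : x ∈ D) :
    (iota (D := D) a).1 x = (⟨x, hx⟩ : D) • a := iota_apply_coe a ⟨x, hx⟩

theorem iota_apply_of_not_mem (a : A) {x : G} (hx : x ∉ D) : (iota (D := D) a).1 x = 0 := by
  simp [iota, hx]

theorem iota_smul (d : D) (a : A) : iota (d • a) = (d : G) • iota (D := D) a := by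
  refine coindFun_ext fun x => ?_
  rw [coind_smul_apply]
  by_cases hx : x ∈ D
  · have hxd : x * (d : G) ∈ D := D.mul_mem hx d.2
    rw [iota_apply_of_mem _ hx, iota_apply_of_mem _ hxd, ← mul_smul]
    rfl
  · have hxd : x * (d : G) ∉ D := fun h => hx ((D.mul_mem_cancel_right d.2).1 h)
    rw [iota_apply_of_not_mem _ hx, iota_apply_of_not_mem _ hxd]

theorem ev1_iota (a : A) : ev1 (iota (D := D) a) = a := by
  have := iota_apply_coe a (1 : D)
  simpa using this

variable [Fintype G] [Fintype D]

/-- `∑_{g ∈ G} f g = N_D (tr f)` -/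
theorem sum_eq_normMap_tr (f : coindFun D A) : ∑ g : G, f.1 g = normMap D A (tr f) := by
  classical
  let _ := Fintype.ofFinite (G ⧸ D)
  rw [← (cosetEquiv (D := D)).sum_comp, Fintype.sum_prod_type, normMap_apply, tr_apply,
    Finset.sum_comm]
  refine Finset.sum_congr rfl fun d _ => ?_
  rw [Finset.smul_sum]
  exact Finset.sum_congr rfl fun q _ => f.2 d (sec q)

/-- `N_G f` is the constant function with value `N_D (tr f)` -/
theorem normMap_coind_apply (f : coindFun D A) (x : G) :
    (normMap G (coindFun D A) f).1 x = normMap D A (tr f) := by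
  rw [normMap_apply, coindFun_sum_apply, ← sum_eq_normMap_tr]
  simp only [coind_smul_apply]
  exact Fintype.sum_equiv (Equiv.mulLeft x) _ _ fun g => rfl

/-- `tr (iota a) = d₀ • a` for some element `d₀` of `D` (namely `sec ⟦1⟧`) -/
theorem tr_iota (a : A) : ∃ d : D, tr (iota (D := D) a) = d • a := by
  classical
  let _ := Fintype.ofFinite (G ⧸ D)
  have h1 : sec (cl (D := D) 1) ∈ D := cl_eq_cl_one_iff.1 (cl_sec _)
  refine ⟨⟨_, h1⟩, ?_⟩
  rw [tr_apply, Finset.sum_eq_single (cl (D := D) 1)]
  · exact iota_apply_of_mem a h1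
  · intro q _ hq
    refine iota_apply_of_not_mem a fun h => hq ?_
    rw [← cl_sec q]
    exact cl_eq_cl_one_iff.2 h
  · intro h
    exact absurd (Finset.mem_univ _) h

theorem tr_iota_sub_mem_aug (a : A) : tr (iota (D := D) a) - a ∈ aug D A := by
  obtain ⟨d, hd⟩ := tr_iota (D := D) a
  rw [hd]
  exact smul_sub_mem_aug d a

theorem normMap_tr_iota (a : A) : normMap D A (tr (iota (D := D) a)) = normMap D A a := by
  obtain ⟨d, hd⟩ := tr_iota (D := D) a
  rw [hd, normMap_smul]

/-- `N_G (iota a)` is the constant function with value `N_D a` -/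
theorem normMap_iota_apply (a : A) (x : G) :
    (normMap G (coindFun D A) (iota a)).1 x = normMap D A a := by
  rw [normMap_coind_apply, normMap_tr_iota]

/-- `tr (g • f) ≡ tr f` modulo `I_D A` -/
theorem tr_smul_sub_mem_aug (g : G) (f : coindFun D A) : tr (g • f) - tr f ∈ aug D A := by
  classical
  let _ := Fintype.ofFinite (G ⧸ D)
  rw [tr_apply, tr_apply]
  have key : ∀ q : G ⧸ D, (g • f).1 (sec q) =
      dpart (D := D) (sec q * g) • f.1 (sec (g⁻¹ • q)) := by
    intro q
    rw [coind_smul_apply, ← f.2]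
    congr 1
    rw [← cl_sec (D := D) q, ← cl_mul_right, cl_sec, dpart_mul_sec]
  have h2 : ∑ q : G ⧸ D, f.1 (sec q) = ∑ q : G ⧸ D, f.1 (sec (g⁻¹ • q)) :=
    (Equiv.sum_comp (MulAction.toPerm (g⁻¹ : G) : G ⧸ D ≃ G ⧸ D) (fun q => f.1 (sec q))).symm
  rw [h2, ← Finset.sum_sub_distrib]
  refine sum_mem fun q _ => ?_
  rw [key q]
  exact smul_sub_mem_aug _ _

/-- reconstruction: `f = ∑_q (out q) • iota (f (sec q))` -/
theorem eq_sum_smul_iota [Fintype (G ⧸ D)] (f : coindFun D A) :
    f = ∑ q : G ⧸ D, (q.out : G) • iota (D := D) (f.1 (sec q)) := by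
  classical
  refine coindFun_ext fun x => ?_
  rw [coindFun_sum_apply, Finset.sum_eq_single (cl (D := D) x)]
  · have hx : x * (cl (D := D) x).out ∈ D := mul_out_cl_mem x
    rw [coind_smul_apply, iota_apply_of_mem _ hx, ← f.2]
    congr 1
    simp [sec]
  · intro q _ hq
    rw [coind_smul_apply]
    refine iota_apply_of_not_mem _ fun h => hq ?_
    rw [← cl_sec q, cl_eq_iff]
    simpa [sec] using h
  · intro h
    exact absurd (Finset.mem_univ _) h

/-! ### Shapiro for `Ĥ⁰` -/

theorem map_fixedEquiv_range_normMap :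
    ((normMap G (coindFun D A)).range.addSubgroupOf (fixed G (coindFun D A))).map
        (fixedEquiv : fixed G (coindFun D A) ≃+ fixed D A).toAddMonoidHom =
      (normMap D A).range.addSubgroupOf (fixed D A) := by
  ext a
  constructor
  · rintro ⟨F, ⟨f, hf⟩, rfl⟩
    refine ⟨tr f, ?_⟩
    show normMap D A (tr f) = F.1.1 1
    rw [← normMap_coind_apply f 1, hf]
    rfl
  · rintro ⟨b, hb⟩
    refine ⟨fixedEquiv.symm a, ⟨iota b, ?_⟩, fixedEquiv.apply_symm_apply a⟩
    refine coindFun_ext fun x => ?_
    rw [normMap_iota_apply, hb]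
    rfl

/-- Shapiro for `Ĥ⁰`: `(coind A)^G / N_G ≃ A^D / N_D`, induced by `f ↦ f 1` -/
noncomputable def H0hatShapiro : H0hat G (coindFun D A) ≃+ H0hat D A :=
  QuotientAddGroup.congr _ _ fixedEquiv map_fixedEquiv_range_normMap

theorem H0hatShapiro_mk (f : fixed G (coindFun D A)) :
    H0hatShapiro (QuotientAddGroup.mk f) = QuotientAddGroup.mk (fixedEquiv f) := rfl

theorem h0Trivial_coind_iff : H0Trivial G (coindFun D A) ↔ H0Trivial D A := by
  rw [h0Trivial_iff_subsingleton, h0Trivial_iff_subsingleton]
  exact (H0hatShapiro (G := G) (D := D) (A := A)).toEquiv.subsingleton_congr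

/-! ### Shapiro for `Ĥ⁻¹` -/

theorem tr_mem_ker {f : coindFun D A} (hf : f ∈ (normMap G (coindFun D A)).ker) :
    tr f ∈ (normMap D A).ker := by
  show normMap D A (tr f) = 0
  rw [← normMap_coind_apply f 1, show normMap G (coindFun D A) f = 0 from hf]
  rfl

theorem tr_mem_aug {f : coindFun D A} (hf : f ∈ aug G (coindFun D A)) : tr f ∈ aug D A := by
  induction hf using AddSubgroup.closure_induction with
  | mem x hx =>
    obtain ⟨g, f, rfl⟩ := hx
    rw [map_sub]
    exact tr_smul_sub_mem_aug g f
  | zero => rw [map_zero]; exact zero_mem _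
  | add x y _ _ hx hy => rw [map_add]; exact add_mem hx hy
  | neg x _ hx => rw [map_neg]; exact neg_mem hx

theorem iota_mem_ker {a : A} (ha : a ∈ (normMap D A).ker) :
    iota a ∈ (normMap G (coindFun D A)).ker := by
  show normMap G (coindFun D A) (iota a) = 0
  refine coindFun_ext fun x => ?_
  rw [normMap_iota_apply, show normMap D A a = 0 from ha]
  rfl

theorem iota_mem_aug {a : A} (ha : a ∈ aug D A) : iota a ∈ aug G (coindFun D A) := by
  induction ha using AddSubgroup.closure_induction with
  | mem x hx =>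
    obtain ⟨d, a, rfl⟩ := hx
    rw [map_sub, iota_smul]
    exact smul_sub_mem_aug _ _
  | zero => rw [map_zero]; exact zero_mem _
  | add x y _ _ hx hy => rw [map_add]; exact add_mem hx hy
  | neg x _ hx => rw [map_neg]; exact neg_mem hx

/-- `f ≡ iota (tr f)` modulo `I_G (coind A)` -/
theorem sub_iota_tr_mem_aug (f : coindFun D A) : f - iota (tr f) ∈ aug G (coindFun D A) := by
  classical
  let _ := Fintype.ofFinite (G ⧸ D)
  have h1 := eq_sum_smul_iota f
  have h2 : iota (tr f) = ∑ q : G ⧸ D, iota (D := D) (f.1 (sec q)) := by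
    rw [tr_apply, map_sum]
  rw [h2]
  nth_rewrite 1 [h1]
  rw [← Finset.sum_sub_distrib]
  exact sum_mem fun q _ => smul_sub_mem_aug _ _

/-- the map on `Ĥ⁻¹` induced by `tr` -/
noncomputable def Hm1hatTr : Hm1hat G (coindFun D A) →+ Hm1hat D A :=
  QuotientAddGroup.map _ _
    ((tr.comp (normMap G (coindFun D A)).ker.subtype).codRestrict (normMap D A).ker
      fun f => tr_mem_ker f.2) (by
      rintro ⟨f, hf⟩ h
      exact tr_mem_aug h)

theorem Hm1hatTr_mk (f : (normMap G (coindFun D A)).ker) :
    Hm1hatTr (QuotientAddGroup.mk f) = QuotientAddGroup.mk ⟨tr f.1, tr_mem_ker f.2⟩ := rfl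

theorem Hm1hatTr_bijective : Function.Bijective (Hm1hatTr (G := G) (D := D) (A := A)) := by
  constructor
  · rw [injective_iff_map_eq_zero]
    intro x hx
    induction x using QuotientAddGroup.induction_on with
    | H f =>
      rw [Hm1hatTr_mk, QuotientAddGroup.eq_zero_iff] at hx
      rw [QuotientAddGroup.eq_zero_iff]
      have h1 : tr f.1 ∈ aug D A := hx
      show f.1 ∈ aug G (coindFun D A)
      have := add_mem (sub_iota_tr_mem_aug f.1) (iota_mem_aug h1)
      rwa [sub_add_cancel] at this
  · intro y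
    induction y using QuotientAddGroup.induction_on with
    | H a =>
      refine ⟨QuotientAddGroup.mk ⟨iota a.1, iota_mem_ker a.2⟩, ?_⟩
      rw [Hm1hatTr_mk, QuotientAddGroup.eq_iff_sub_mem]
      exact tr_iota_sub_mem_aug a.1

/-- Shapiro for `Ĥ⁻¹`: `ker N_G / I_G (coind A) ≃ ker N_D / I_D A`, induced by `tr` -/
noncomputable def Hm1hatShapiro : Hm1hat G (coindFun D A) ≃+ Hm1hat D A :=
  AddEquiv.ofBijective Hm1hatTr Hm1hatTr_bijective

theorem hm1Trivial_coind_iff : Hm1Trivial G (coindFun D A) ↔ Hm1Trivial D A := by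
  rw [hm1Trivial_iff_subsingleton, hm1Trivial_iff_subsingleton]
  exact (Hm1hatShapiro (G := G) (D := D) (A := A)).toEquiv.subsingleton_congr

end Transfer

/-! ### Shapiro for `H¹` (crossed homomorphisms), `G` arbitrary -/

section H1

variable {G : Type*} [Group G] {D : Subgroup G} {A : Type*} [AddCommGroup A] [DistribMulAction D A]

/-- restriction to `D` followed by evaluation at `1` -/
def resEv (γ : G → coindFun D A) : D → A := fun d => (γ (d : G)).1 1

@[simp] theorem resEv_apply (γ : G → coindFun D A) (d : D) : resEv γ d = (γ (d : G)).1 1 := rfl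

theorem isCocycle₁_resEv {γ : G → coindFun D A} (hγ : IsCocycle₁ γ) : IsCocycle₁ (resEv γ) := by
  intro d d'
  show (γ ((d * d' : D) : G)).1 1 = d • (γ (d' : G)).1 1 + (γ (d : G)).1 1
  rw [Subgroup.coe_mul, hγ, coindFun_add_apply, coind_smul_apply, one_mul, coindFun_apply_coe]

theorem isCoboundary₁_resEv {γ : G → coindFun D A} (hγ : IsCoboundary₁ γ) :
    IsCoboundary₁ (resEv γ) := by
  obtain ⟨β, hβ⟩ := hγ
  refine ⟨β.1 1, fun d => ?_⟩
  show d • β.1 1 - β.1 1 = (γ (d : G)).1 1
  rw [← hβ d, coindFun_sub_apply, coind_smul_apply, one_mul, coindFun_apply_coe]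

/-- injectivity of Shapiro's map on `H¹` -/
theorem isCoboundary₁_of_resEv {γ : G → coindFun D A} (hγ : IsCocycle₁ γ)
    (h : IsCoboundary₁ (resEv γ)) : IsCoboundary₁ γ := by
  obtain ⟨a, ha⟩ := h
  have hβ : (fun x => a + (γ x).1 1) ∈ coindFun D A := by
    intro d g
    show a + (γ ((d : G) * g)).1 1 = d • (a + (γ g).1 1)
    rw [hγ, coindFun_add_apply, coind_smul_apply, one_mul, coindFun_apply_coe, smul_add]
    have h1 : d • a - a = (γ (d : G)).1 1 := ha d
    rw [← h1]
    abel
  refine ⟨⟨_, hβ⟩, fun g => coindFun_ext fun x => ?_⟩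
  show (a + (γ (x * g)).1 1) - (a + (γ x).1 1) = (γ g).1 x
  rw [hγ, coindFun_add_apply, coind_smul_apply, one_mul]
  abel

theorem dpart_coe_mul (d : D) (x : G) : dpart (D := D) ((d : G) * x) = d * dpart x :=
  dpart_mul_left d x

/-- the cocycle of `G` with values in `coind A` attached to a cocycle `c` of `D` with values in
`A`: `γ g x = c (δ (x g)) - c (δ x)` where `x = δ x * sec (cl x)` -/
noncomputable def coindCocycle (c : D → A) (hc : IsCocycle₁ c) (g : G) : coindFun D A :=
  ⟨fun x => c (dpart (x * g)) - c (dpart x), fun d x => by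
    show c (dpart ((d : G) * x * g)) - c (dpart ((d : G) * x)) =
      d • (c (dpart (x * g)) - c (dpart x))
    rw [mul_assoc, dpart_mul_left, dpart_mul_left, hc, hc, smul_sub]
    abel⟩

theorem coindCocycle_apply (c : D → A) (hc : IsCocycle₁ c) (g x : G) :
    (coindCocycle c hc g).1 x = c (dpart (x * g)) - c (dpart x) := rfl

theorem isCocycle₁_coindCocycle (c : D → A) (hc : IsCocycle₁ c) :
    IsCocycle₁ (coindCocycle (G := G) c hc) := by
  intro g h
  refine coindFun_ext fun x => ?_
  rw [coindFun_add_apply, coind_smul_apply, coindCocycle_apply, coindCocycle_apply,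
    coindCocycle_apply, mul_assoc]
  abel

theorem resEv_coindCocycle (c : D → A) (hc : IsCocycle₁ c) (d : D) :
    resEv (coindCocycle (G := G) c hc) d =
      c d + (d • c (dpart (D := D) 1) - c (dpart (D := D) 1)) := by
  rw [resEv_apply, coindCocycle_apply, one_mul]
  have : dpart (D := D) (d : G) = d * dpart (D := D) 1 := by
    rw [← dpart_mul_left, mul_one]
  rw [this, hc]
  abel

/-- surjectivity of Shapiro's map on `H¹`: every cocycle of `D` is cohomologous to `resEv γ` for a
cocycle `γ` of `G` -/
theorem exists_cocycle_resEv (c : D → A) (hc : IsCocycle₁ c) :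
    ∃ γ : G → coindFun D A, IsCocycle₁ γ ∧ IsCoboundary₁ (fun d => resEv γ d - c d) :=
  ⟨coindCocycle c hc, isCocycle₁_coindCocycle c hc, c (dpart (D := D) 1), fun d => by
    show _ = resEv (coindCocycle c hc) d - c d
    rw [resEv_coindCocycle]; abel⟩

/-- Shapiro for `H¹`: `H¹(G, coind A) = 0 ↔ H¹(D, A) = 0` -/
theorem h1Trivial_coind_iff : H1Trivial G (coindFun D A) ↔ H1Trivial D A := by
  constructor
  · intro h c hc
    obtain ⟨b, hb⟩ := isCoboundary₁_resEv (h _ (isCocycle₁_coindCocycle (G := G) c hc))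
    refine ⟨b - c (dpart (D := D) 1), fun d => ?_⟩
    have h1 := hb d
    rw [resEv_coindCocycle] at h1
    rw [smul_sub]
    have h2 : c d = d • b - b - (d • c (dpart (D := D) 1) - c (dpart (D := D) 1)) := by
      rw [h1]; abel
    rw [h2]
    abel
  · intro h γ hγ
    exact isCoboundary₁_of_resEv hγ (h _ (isCocycle₁_resEv hγ))

end H1

end Fermat.Agent.S55.Idele56
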