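/-
S55 project, leaf 15-IDELE, abstract half (helper56), file 3: low-degree cohomology of a finite
group commutes with ARBITRARY products (Mathlib only).

For a family `A i` (`i : ι`, `ι` any type) of `G`-modules, `∀ i, A i` is a `G`-module
(`Pi.distribMulAction`), and
* `mem_fixed_pi`, `normMap_pi_apply`, `mem_aug_pi` (the latter for finite `G`);
* `h0Trivial_pi_iff`, `hm1Trivial_pi_iff`, `h1Trivial_pi_iff`, `h2Trivial_pi_iff`;
* `H0hatPi : H0hat G (∀ i, A i) ≃+ ∀ i, H0hat G (A i)`, `Hm1hatPi` likewise;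
* the same for binary products `A × B`.
-/
import Fermat.Agent.S55.Idele56.Basic

set_option autoImplicit false
set_option linter.unusedSectionVars false

open scoped BigOperators

namespace Fermat.Agent.S55.Idele56

open groupCohomology

/-- for finite `G`, `I_G A = ∑_g (g - 1) A` -/
theorem mem_aug_iff {G : Type*} [Group G] [Fintype G] {A : Type*} [AddCommGroup A]
    [DistribMulAction G A] {x : A} :
    x ∈ aug G A ↔ ∃ a : G → A, x = ∑ g : G, (g • a g - a g) := by
  classical
  constructor
  · intro hx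
    induction hx using AddSubgroup.closure_induction with
    | mem x hx =>
      obtain ⟨g, a, rfl⟩ := hx
      refine ⟨Pi.single g a, ?_⟩
      rw [Finset.sum_eq_single g]
      · simp
      · intro h _ hh
        simp [Pi.single_eq_of_ne hh]
      · intro h
        exact absurd (Finset.mem_univ _) h
    | zero => exact ⟨0, by simp⟩
    | add x y _ _ hx hy =>
      obtain ⟨a, rfl⟩ := hx
      obtain ⟨b, rfl⟩ := hy
      refine ⟨a + b, ?_⟩
      rw [← Finset.sum_add_distrib]
      refine Finset.sum_congr rfl fun g _ => ?_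
      simp only [Pi.add_apply, smul_add]
      abel
    | neg x _ hx =>
      obtain ⟨a, rfl⟩ := hx
      refine ⟨-a, ?_⟩
      rw [← Finset.sum_neg_distrib]
      refine Finset.sum_congr rfl fun g _ => ?_
      simp only [Pi.neg_apply, smul_neg]
      abel
  · rintro ⟨a, rfl⟩
    exact sum_mem fun g _ => smul_sub_mem_aug g (a g)

section Pi

variable {G : Type*} [Group G] {ι : Type*} (A : ι → Type*) [∀ i, AddCommGroup (A i)]
  [∀ i, DistribMulAction G (A i)]

theorem mem_fixed_pi {f : ∀ i, A i} : f ∈ fixed G (∀ i, A i) ↔ ∀ i, f i ∈ fixed G (A i) :=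
  ⟨fun h i g => congrFun (h g) i, fun h g => funext fun i => h i g⟩

theorem evalHom_smul (i : ι) (g : G) (f : ∀ i, A i) :
    Pi.evalAddMonoidHom A i (g • f) = g • Pi.evalAddMonoidHom A i f := rfl

open Classical in
theorem single_smul (i : ι) (g : G) (a : A i) :
    AddMonoidHom.single A i (g • a) = g • AddMonoidHom.single A i a := by
  funext j
  by_cases hj : j = i
  · subst hj
    simp
  · simp [Pi.single_eq_of_ne hj]

/-! #### `H¹`, `H²` -/

theorem isCocycle₁_pi_iff {c : G → ∀ i, A i} :
    IsCocycle₁ c ↔ ∀ i, IsCocycle₁ (fun g => c g i) :=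
  ⟨fun h i g g' => congrFun (h g g') i, fun h g g' => funext fun i => h i g g'⟩

theorem isCoboundary₁_pi_iff {c : G → ∀ i, A i} :
    IsCoboundary₁ c ↔ ∀ i, IsCoboundary₁ (fun g => c g i) := by
  constructor
  · rintro ⟨x, hx⟩ i
    exact ⟨x i, fun g => congrFun (hx g) i⟩
  · intro h
    choose x hx using h
    exact ⟨x, fun g => funext fun i => hx i g⟩

theorem isCocycle₂_pi_iff {c : G × G → ∀ i, A i} :
    IsCocycle₂ c ↔ ∀ i, IsCocycle₂ (fun p => c p i) :=
  ⟨fun h i g g' g'' => congrFun (h g g' g'') i, fun h g g' g'' => funext fun i => h i g g' g''⟩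

theorem isCoboundary₂_pi_iff {c : G × G → ∀ i, A i} :
    IsCoboundary₂ c ↔ ∀ i, IsCoboundary₂ (fun p => c p i) := by
  constructor
  · rintro ⟨x, hx⟩ i
    exact ⟨fun g => x g i, fun g g' => congrFun (hx g g') i⟩
  · intro h
    choose x hx using h
    exact ⟨fun g i => x i g, fun g g' => funext fun i => hx i g g'⟩

open Classical in
theorem h1Trivial_pi_iff : H1Trivial G (∀ i, A i) ↔ ∀ i, H1Trivial G (A i) := by
  constructor
  · intro h i c hc
    have h1 : IsCocycle₁ (fun g => AddMonoidHom.single A i (c g)) := fun g g' => by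
      show AddMonoidHom.single A i (c (g * g')) = g • AddMonoidHom.single A i (c g') + _
      rw [hc, map_add, single_smul]
    have h2 := (isCoboundary₁_pi_iff A).1 (h _ h1) i
    simpa using h2
  · intro h c hc
    exact (isCoboundary₁_pi_iff A).2 fun i => h i _ ((isCocycle₁_pi_iff A).1 hc i)

open Classical in
theorem h2Trivial_pi_iff : H2Trivial G (∀ i, A i) ↔ ∀ i, H2Trivial G (A i) := by
  constructor
  · intro h i c hc
    have h1 : IsCocycle₂ (fun p => AddMonoidHom.single A i (c p)) := fun g g' g'' => by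
      show AddMonoidHom.single A i (c (g * g', g'')) + AddMonoidHom.single A i (c (g, g')) =
        g • AddMonoidHom.single A i (c (g', g'')) + AddMonoidHom.single A i (c (g, g' * g''))
      rw [← map_add, hc, map_add, single_smul]
    have h2 := (isCoboundary₂_pi_iff A).1 (h _ h1) i
    simpa using h2
  · intro h c hc
    exact (isCoboundary₂_pi_iff A).2 fun i => h i _ ((isCocycle₂_pi_iff A).1 hc i)

/-! #### `Ĥ⁰`, `Ĥ⁻¹` -/

variable [Fintype G]

theorem normMap_pi_apply (f : ∀ i, A i) (i : ι) :
    normMap G (∀ i, A i) f i = normMap G (A i) (f i) := by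
  rw [normMap_apply, normMap_apply, Finset.sum_apply]
  rfl

theorem mem_aug_pi {f : ∀ i, A i} : f ∈ aug G (∀ i, A i) ↔ ∀ i, f i ∈ aug G (A i) := by
  constructor
  · intro h i
    exact map_mem_aug (Pi.evalAddMonoidHom A i) (evalHom_smul A i) h
  · intro h
    have h' : ∀ i, ∃ a : G → A i, f i = ∑ g : G, (g • a g - a g) := fun i => mem_aug_iff.1 (h i)
    choose a ha using h'
    refine mem_aug_iff.2 ⟨fun g i => a i g, funext fun i => ?_⟩
    rw [ha i, Finset.sum_apply]
    rfl

open Classical in
theorem h0Trivial_pi_iff : H0Trivial G (∀ i, A i) ↔ ∀ i, H0Trivial G (A i) := by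
  constructor
  · intro h i a ha
    have h1 : AddMonoidHom.single A i a ∈ fixed G (∀ i, A i) := fun g => by
      rw [← single_smul, ha g]
    obtain ⟨b, hb⟩ := h _ h1
    refine ⟨b i, ?_⟩
    rw [← normMap_pi_apply, hb]
    simp
  · intro h f hf
    have h' : ∀ i, ∃ b : A i, normMap G (A i) b = f i := fun i =>
      h i (f i) ((mem_fixed_pi A).1 hf i)
    choose b hb using h'
    exact ⟨b, funext fun i => by rw [normMap_pi_apply, hb]⟩

open Classical in
theorem hm1Trivial_pi_iff : Hm1Trivial G (∀ i, A i) ↔ ∀ i, Hm1Trivial G (A i) := by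
  constructor
  · intro h i a ha
    have h1 : normMap G (∀ i, A i) (AddMonoidHom.single A i a) = 0 := by
      rw [← map_normMap (AddMonoidHom.single A i) (single_smul A i), ha, map_zero]
    have h2 := (mem_aug_pi A).1 (h _ h1) i
    simpa using h2
  · intro h f hf
    refine (mem_aug_pi A).2 fun i => h i (f i) ?_
    rw [← normMap_pi_apply, hf]
    rfl

/-- the comparison map `Ĥ⁰(G, ∏ A i) → ∏ Ĥ⁰(G, A i)` -/
def H0hatPiHom : H0hat G (∀ i, A i) →+ ∀ i, H0hat G (A i) :=
  AddMonoidHom.mk' (fun x i => H0hat.map (Pi.evalAddMonoidHom A i) (evalHom_smul A i) x)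
    fun x y => funext fun i => map_add _ x y

theorem H0hatPiHom_mk (f : fixed G (∀ i, A i)) (i : ι) :
    H0hatPiHom A (QuotientAddGroup.mk f) i =
      QuotientAddGroup.mk ⟨f.1 i, (mem_fixed_pi A).1 f.2 i⟩ := rfl

theorem H0hatPiHom_bijective : Function.Bijective (H0hatPiHom (G := G) A) := by
  constructor
  · rw [injective_iff_map_eq_zero]
    intro x hx
    induction x using QuotientAddGroup.induction_on with
    | H f =>
      have h' : ∀ i, ∃ b : A i, normMap G (A i) b = f.1 i := fun i => by
        have := congrFun hx i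
        rw [H0hatPiHom_mk] at this
        exact (QuotientAddGroup.eq_zero_iff _).1 this
      choose b hb using h'
      refine (QuotientAddGroup.eq_zero_iff _).2 ⟨b, funext fun i => ?_⟩
      rw [normMap_pi_apply, hb]
      rfl
  · intro y
    have h' : ∀ i, ∃ a : fixed G (A i), (QuotientAddGroup.mk a : H0hat G (A i)) = y i :=
      fun i => QuotientAddGroup.mk_surjective (y i)
    choose a ha using h'
    refine ⟨QuotientAddGroup.mk ⟨fun i => (a i).1, (mem_fixed_pi A).2 fun i => (a i).2⟩,
      funext fun i => ?_⟩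
    rw [H0hatPiHom_mk, ← ha i]

/-- `Ĥ⁰` commutes with arbitrary products -/
noncomputable def H0hatPi : H0hat G (∀ i, A i) ≃+ ∀ i, H0hat G (A i) :=
  AddEquiv.ofBijective (H0hatPiHom A) (H0hatPiHom_bijective A)

/-- the comparison map `Ĥ⁻¹(G, ∏ A i) → ∏ Ĥ⁻¹(G, A i)` -/
def Hm1hatPiHom : Hm1hat G (∀ i, A i) →+ ∀ i, Hm1hat G (A i) :=
  AddMonoidHom.mk' (fun x i => Hm1hat.map (Pi.evalAddMonoidHom A i) (evalHom_smul A i) x)
    fun x y => funext fun i => map_add _ x y

theorem mem_ker_normMap_pi {f : ∀ i, A i} :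
    f ∈ (normMap G (∀ i, A i)).ker ↔ ∀ i, f i ∈ (normMap G (A i)).ker := by
  simp only [AddMonoidHom.mem_ker]
  constructor
  · intro h i
    rw [← normMap_pi_apply, h]
    rfl
  · intro h
    exact funext fun i => by rw [normMap_pi_apply, h i]; rfl

theorem Hm1hatPiHom_mk (f : (normMap G (∀ i, A i)).ker) (i : ι) :
    Hm1hatPiHom A (QuotientAddGroup.mk f) i =
      QuotientAddGroup.mk ⟨f.1 i, (mem_ker_normMap_pi A).1 f.2 i⟩ := rfl

theorem Hm1hatPiHom_bijective : Function.Bijective (Hm1hatPiHom (G := G) A) := by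
  constructor
  · rw [injective_iff_map_eq_zero]
    intro x hx
    induction x using QuotientAddGroup.induction_on with
    | H f =>
      refine (QuotientAddGroup.eq_zero_iff _).2 ?_
      show f.1 ∈ aug G (∀ i, A i)
      refine (mem_aug_pi A).2 fun i => ?_
      have := congrFun hx i
      rw [Hm1hatPiHom_mk] at this
      exact (QuotientAddGroup.eq_zero_iff
        (⟨f.1 i, (mem_ker_normMap_pi A).1 f.2 i⟩ : (normMap G (A i)).ker)).1 this
  · intro y
    have h' : ∀ i, ∃ a : (normMap G (A i)).ker,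
        (QuotientAddGroup.mk a : Hm1hat G (A i)) = y i :=
      fun i => QuotientAddGroup.mk_surjective (y i)
    choose a ha using h'
    refine ⟨QuotientAddGroup.mk ⟨fun i => (a i).1,
      (mem_ker_normMap_pi A).2 fun i => (a i).2⟩, funext fun i => ?_⟩
    rw [Hm1hatPiHom_mk, ← ha i]

/-- `Ĥ⁻¹` commutes with arbitrary products (finite `G`) -/
noncomputable def Hm1hatPi : Hm1hat G (∀ i, A i) ≃+ ∀ i, Hm1hat G (A i) :=
  AddEquiv.ofBijective (Hm1hatPiHom A) (Hm1hatPiHom_bijective A)

end Pi

end Fermat.Agent.S55.Idele56
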