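/-
S55 project, leaf 15-IDELE, abstract half (helper56), file 4: `G`-stable subgroups, subgroups of
products cut out by local conditions (`piSub`), the groups `J_T` and the restricted product `J`
(Mathlib only).  No number fields: `V` is any index type, `B v` any `G`-modules, `W v ≤ B v`
`G`-stable subgroups ("local units").
-/
import Fermat.Agent.S55.Idele56.Prod

set_option autoImplicit false
set_option linter.unusedSectionVars false

open scoped BigOperators

namespace Fermat.Agent.S55.Idele56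

open groupCohomology

/-- a `G`-stable additive subgroup of a `G`-module -/
structure StableSub (G : Type*) [Monoid G] (B : Type*) [AddCommGroup B] [DistribMulAction G B]
    extends AddSubgroup B where
  smul_mem' : ∀ (g : G) {b : B}, b ∈ carrier → g • b ∈ carrier

namespace StableSub

section Basic

variable {G : Type*} [Monoid G] {B : Type*} [AddCommGroup B] [DistribMulAction G B]

instance : SetLike (StableSub G B) B where
  coe S := S.carrier
  coe_injective S T h := by
    obtain ⟨⟨⟨⟨_, _⟩, _⟩, _⟩, _⟩ := S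
    obtain ⟨⟨⟨⟨_, _⟩, _⟩, _⟩, _⟩ := T
    congr

instance : AddSubgroupClass (StableSub G B) B where
  add_mem {S} := S.add_mem'
  zero_mem S := S.zero_mem'
  neg_mem {S} := S.neg_mem'

theorem mem_toAddSubgroup {S : StableSub G B} {b : B} : b ∈ S.toAddSubgroup ↔ b ∈ S := Iff.rfl

theorem smul_mem (S : StableSub G B) (g : G) {b : B} (hb : b ∈ S) : g • b ∈ S := S.smul_mem' g hb

instance (S : StableSub G B) : SMul G S := ⟨fun g b => ⟨g • b.1, S.smul_mem g b.2⟩⟩

@[simp] theorem coe_smul (S : StableSub G B) (g : G) (b : S) : ((g • b : S) : B) = g • (b : B) := rfl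

instance (S : StableSub G B) : DistribMulAction G S where
  one_smul b := Subtype.ext (one_smul G b.1)
  mul_smul g h b := Subtype.ext (mul_smul g h b.1)
  smul_zero g := Subtype.ext (smul_zero g)
  smul_add g a b := Subtype.ext (smul_add g a.1 b.1)

/-- the inclusion `S →+ B` -/
def incl (S : StableSub G B) : S →+ B := AddSubgroupClass.subtype S

@[simp] theorem incl_apply (S : StableSub G B) (b : S) : S.incl b = (b : B) := rfl

theorem incl_smul (S : StableSub G B) (g : G) (b : S) : S.incl (g • b) = g • S.incl b := rfl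

theorem incl_injective (S : StableSub G B) : Function.Injective S.incl := Subtype.coe_injective

/-- the whole module as a stable subgroup -/
instance : Top (StableSub G B) := ⟨{ (⊤ : AddSubgroup B) with smul_mem' := fun _ _ _ => trivial }⟩

@[simp] theorem mem_top (b : B) : b ∈ (⊤ : StableSub G B) := trivial

/-- `(⊤ : StableSub G B) ≃+ B` -/
def topEquiv : (⊤ : StableSub G B) ≃+ B where
  toFun b := b.1
  invFun b := ⟨b, trivial⟩
  left_inv _ := rfl
  right_inv _ := rfl
  map_add' _ _ := rfl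

theorem topEquiv_smul (g : G) (b : (⊤ : StableSub G B)) : topEquiv (g • b) = g • topEquiv b := rfl

instance : LE (StableSub G B) := ⟨fun S T => ∀ ⦃b⦄, b ∈ S → b ∈ T⟩

/-- the inclusion of stable subgroups `S ≤ T` -/
def inclusion {S T : StableSub G B} (h : S ≤ T) : S →+ T where
  toFun b := ⟨b.1, h b.2⟩
  map_zero' := rfl
  map_add' _ _ := rfl

theorem inclusion_smul {S T : StableSub G B} (h : S ≤ T) (g : G) (b : S) :
    inclusion h (g • b) = g • inclusion h b := rfl

end Basic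

/-! ### cohomology of a stable subgroup in terms of the ambient module -/

section Relative

variable {G : Type*} [Group G] {B : Type*} [AddCommGroup B] [DistribMulAction G B]
  (S : StableSub G B)

theorem mem_fixed_iff {b : S} : b ∈ fixed G S ↔ (b : B) ∈ fixed G B :=
  ⟨fun h g => congrArg Subtype.val (h g), fun h g => Subtype.ext (h g)⟩

theorem h1Trivial_iff : H1Trivial G S ↔ ∀ c : G → B, (∀ g, c g ∈ S) → IsCocycle₁ c →
    ∃ x ∈ S, ∀ g, g • x - x = c g := by
  constructor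
  · intro h c hcS hc
    obtain ⟨x, hx⟩ := h (fun g => ⟨c g, hcS g⟩) fun g g' => Subtype.ext (hc g g')
    exact ⟨x.1, x.2, fun g => congrArg Subtype.val (hx g)⟩
  · intro h c hc
    obtain ⟨x, hxS, hx⟩ := h (fun g => (c g).1) (fun g => (c g).2)
      fun g g' => congrArg Subtype.val (hc g g')
    exact ⟨⟨x, hxS⟩, fun g => Subtype.ext (hx g)⟩

theorem h2Trivial_iff : H2Trivial G S ↔ ∀ c : G × G → B, (∀ p, c p ∈ S) → IsCocycle₂ c →
    ∃ x : G → B, (∀ g, x g ∈ S) ∧ ∀ g h, g • x h - x (g * h) + x g = c (g, h) := by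
  constructor
  · intro h c hcS hc
    obtain ⟨x, hx⟩ := h (fun p => ⟨c p, hcS p⟩) fun g g' g'' => Subtype.ext (hc g g' g'')
    exact ⟨fun g => (x g).1, fun g => (x g).2, fun g g' => congrArg Subtype.val (hx g g')⟩
  · intro h c hc
    obtain ⟨x, hxS, hx⟩ := h (fun p => (c p).1) (fun p => (c p).2)
      fun g g' g'' => congrArg Subtype.val (hc g g' g'')
    exact ⟨fun g => ⟨x g, hxS g⟩, fun g g' => Subtype.ext (hx g g')⟩

variable [Fintype G]

theorem coe_normMap (b : S) : ((normMap G S b : S) : B) = normMap G B (b : B) :=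
  map_normMap S.incl S.incl_smul b

theorem h0Trivial_iff : H0Trivial G S ↔ ∀ a ∈ S, a ∈ fixed G B → ∃ b ∈ S, normMap G B b = a := by
  constructor
  · intro h a haS ha
    obtain ⟨b, hb⟩ := h ⟨a, haS⟩ ((mem_fixed_iff S).2 ha)
    exact ⟨b.1, b.2, by rw [← coe_normMap, hb]⟩
  · intro h a ha
    obtain ⟨b, hbS, hb⟩ := h a.1 a.2 ((mem_fixed_iff S).1 ha)
    exact ⟨⟨b, hbS⟩, Subtype.ext (by rw [coe_normMap]; exact hb)⟩

/-- `I_G S` inside the ambient module: sums `∑_g (g • a g - a g)` with `a g ∈ S` -/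
theorem coe_mem_aug_iff {b : S} : b ∈ aug G S ↔
    ∃ a : G → B, (∀ g, a g ∈ S) ∧ (b : B) = ∑ g : G, (g • a g - a g) := by
  rw [mem_aug_iff]
  constructor
  · rintro ⟨a, ha⟩
    refine ⟨fun g => (a g).1, fun g => (a g).2, ?_⟩
    rw [ha]
    exact map_sum S.incl _ _
  · rintro ⟨a, haS, ha⟩
    refine ⟨fun g => ⟨a g, haS g⟩, Subtype.ext ?_⟩
    rw [ha]
    exact (map_sum S.incl (fun g : G => g • (⟨a g, haS g⟩ : S) - ⟨a g, haS g⟩) Finset.univ).symm

theorem hm1Trivial_iff : Hm1Trivial G S ↔ ∀ b ∈ S, normMap G B b = 0 →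
    ∃ a : G → B, (∀ g, a g ∈ S) ∧ b = ∑ g : G, (g • a g - a g) := by
  constructor
  · intro h b hbS hb
    exact (coe_mem_aug_iff S (b := ⟨b, hbS⟩)).1
      (h ⟨b, hbS⟩ (Subtype.ext (by rw [coe_normMap]; exact hb)))
  · intro h b hb
    refine (coe_mem_aug_iff S).2 (h b.1 b.2 ?_)
    rw [← coe_normMap, hb]
    rfl

end Relative

end StableSub

/-! ### subgroups of a product cut out by local conditions -/

section PiSub

variable {G : Type*} [Group G] {V : Type*} {B : V → Type*} [∀ v, AddCommGroup (B v)]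
  [∀ v, DistribMulAction G (B v)]

/-- `{x ∈ ∏_v B v | ∀ v, x v ∈ S v}` -/
def piSub (S : ∀ v, StableSub G (B v)) : StableSub G (∀ v, B v) where
  carrier := {x | ∀ v, x v ∈ S v}
  zero_mem' v := zero_mem (S v)
  add_mem' hx hy v := add_mem (hx v) (hy v)
  neg_mem' hx v := neg_mem (hx v)
  smul_mem' g _ hx v := (S v).smul_mem g (hx v)

theorem mem_piSub {S : ∀ v, StableSub G (B v)} {x : ∀ v, B v} :
    x ∈ piSub S ↔ ∀ v, x v ∈ S v := Iff.rfl

/-- `piSub S ≃ ∏_v S v` -/
def piSubEquiv (S : ∀ v, StableSub G (B v)) : piSub S ≃+ ∀ v, S v where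
  toFun x v := ⟨x.1 v, x.2 v⟩
  invFun y := ⟨fun v => (y v).1, fun v => (y v).2⟩
  left_inv _ := rfl
  right_inv _ := rfl
  map_add' _ _ := rfl

theorem piSubEquiv_smul (S : ∀ v, StableSub G (B v)) (g : G) (x : piSub S) :
    piSubEquiv S (g • x) = g • piSubEquiv S x := rfl

theorem h1Trivial_piSub_iff (S : ∀ v, StableSub G (B v)) :
    H1Trivial G (piSub S) ↔ ∀ v, H1Trivial G (S v) := by
  rw [← h1Trivial_pi_iff]
  constructor
  · intro h c hc
    obtain ⟨x, hx⟩ := h (fun g => (piSubEquiv S).symm (c g)) fun g g' => by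
      show (piSubEquiv S).symm (c (g * g')) = g • (piSubEquiv S).symm (c g') + _
      rw [hc, map_add, symm_equivariant (piSubEquiv S) (piSubEquiv_smul S)]
    refine ⟨piSubEquiv S x, fun g => ?_⟩
    rw [← piSubEquiv_smul, ← map_sub, hx, AddEquiv.apply_symm_apply]
  · intro h c hc
    obtain ⟨x, hx⟩ := h (fun g => piSubEquiv S (c g)) fun g g' => by
      show piSubEquiv S (c (g * g')) = g • piSubEquiv S (c g') + _
      rw [hc, map_add, piSubEquiv_smul]
    refine ⟨(piSubEquiv S).symm x, fun g => ?_⟩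
    rw [← symm_equivariant (piSubEquiv S) (piSubEquiv_smul S), ← map_sub, hx,
      AddEquiv.symm_apply_apply]

variable [Fintype G]

theorem h0Trivial_piSub_iff (S : ∀ v, StableSub G (B v)) :
    H0Trivial G (piSub S) ↔ ∀ v, H0Trivial G (S v) := by
  rw [← h0Trivial_pi_iff]
  exact h0Trivial_congr (piSubEquiv S) (piSubEquiv_smul S)

theorem hm1Trivial_piSub_iff (S : ∀ v, StableSub G (B v)) :
    Hm1Trivial G (piSub S) ↔ ∀ v, Hm1Trivial G (S v) := by
  rw [← hm1Trivial_pi_iff]
  exact hm1Trivial_congr (piSubEquiv S) (piSubEquiv_smul S)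

/-- `Ĥ⁰(G, piSub S) ≃ ∏_v Ĥ⁰(G, S v)` -/
noncomputable def H0hatPiSub (S : ∀ v, StableSub G (B v)) :
    H0hat G (piSub S) ≃+ ∀ v, H0hat G (S v) :=
  (H0hat.congr (piSubEquiv S) (piSubEquiv_smul S)).trans (H0hatPi fun v => S v)

/-- `Ĥ⁻¹(G, piSub S) ≃ ∏_v Ĥ⁻¹(G, S v)` -/
noncomputable def Hm1hatPiSub (S : ∀ v, StableSub G (B v)) :
    Hm1hat G (piSub S) ≃+ ∀ v, Hm1hat G (S v) :=
  (Hm1hat.congr (piSubEquiv S) (piSubEquiv_smul S)).trans (Hm1hatPi fun v => S v)

end PiSub

/-! ### `J_T` and the restricted product `J` -/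

section Restricted

variable {G : Type*} [Group G] {V : Type*} {B : V → Type*} [∀ v, AddCommGroup (B v)]
  [∀ v, DistribMulAction G (B v)] (W : ∀ v, StableSub G (B v))

/-- `J_T = ∏_{v ∈ T} B v × ∏_{v ∉ T} W v` as a stable subgroup of `∏_v B v` (`T` any set) -/
def JT (T : Set V) : StableSub G (∀ v, B v) where
  carrier := {x | ∀ v, v ∉ T → x v ∈ W v}
  zero_mem' v _ := zero_mem (W v)
  add_mem' hx hy v hv := add_mem (hx v hv) (hy v hv)
  neg_mem' hx v hv := neg_mem (hx v hv)
  smul_mem' g _ hx v hv := (W v).smul_mem g (hx v hv)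

variable {W} in
theorem mem_JT {T : Set V} {x : ∀ v, B v} : x ∈ JT W T ↔ ∀ v, v ∉ T → x v ∈ W v := Iff.rfl

theorem JT_mono {T T' : Set V} (h : T ⊆ T') : JT W T ≤ JT W T' :=
  fun _ hx v hv => hx v fun hvT => hv (h hvT)

/-- the restricted product of the `B v` with respect to the `W v` -/
def J : StableSub G (∀ v, B v) where
  carrier := {x | {v | x v ∉ W v}.Finite}
  zero_mem' := by
    have : {v | (0 : ∀ v, B v) v ∉ W v} = ∅ := by
      ext v
      simp [zero_mem (W v)]
    show {v | (0 : ∀ v, B v) v ∉ W v}.Finite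
    rw [this]
    exact Set.finite_empty
  add_mem' {x y} hx hy := by
    refine (Set.Finite.union hx hy).subset fun v hv => ?_
    by_contra h
    rw [Set.mem_union, not_or] at h
    exact hv (add_mem (not_not.1 h.1) (not_not.1 h.2))
  neg_mem' {x} hx := by
    refine Set.Finite.subset hx fun v hv h => hv ?_
    exact neg_mem h
  smul_mem' g x hx := by
    refine Set.Finite.subset hx fun v hv h => hv ?_
    exact (W v).smul_mem g h

variable {W} in
theorem mem_J {x : ∀ v, B v} : x ∈ J W ↔ {v | x v ∉ W v}.Finite := Iff.rfl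

theorem JT_le_J {T : Set V} (hT : T.Finite) : JT W T ≤ J W := fun x hx =>
  hT.subset fun v hv => by
    by_contra h
    exact hv (hx v h)

variable {W} in
theorem mem_J_iff_exists {x : ∀ v, B v} : x ∈ J W ↔ ∃ T : Set V, T.Finite ∧ x ∈ JT W T :=
  ⟨fun hx => ⟨_, hx, fun v hv => not_not.1 hv⟩, fun ⟨_, hT, hx⟩ => JT_le_J W hT hx⟩

/-- a family with finitely many components outside `W` and arbitrary components in a finite set
lies in `J` -/
theorem mem_J_of_forall_not_mem {T : Set V} (hT : T.Finite) {x : ∀ v, B v}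
    (hx : ∀ v, v ∉ T → x v ∈ W v) : x ∈ J W := JT_le_J W hT hx

/-! #### `H¹` -/

theorem h1Trivial_JT (T : Set V) (hB : ∀ v, v ∈ T → H1Trivial G (B v))
    (hW : ∀ v, v ∉ T → H1Trivial G (W v)) : H1Trivial G (JT W T) := by
  classical
  rw [StableSub.h1Trivial_iff]
  intro c hcS hc
  have hc' := (isCocycle₁_pi_iff B).1 hc
  have key : ∀ v, ∃ x : B v, (v ∉ T → x ∈ W v) ∧ ∀ g, g • x - x = c g v := by
    intro v
    by_cases hv : v ∈ T
    · obtain ⟨x, hx⟩ := hB v hv _ (hc' v)
      exact ⟨x, fun h => absurd hv h, hx⟩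
    · obtain ⟨x, hxW, hx⟩ := (StableSub.h1Trivial_iff (W v)).1 (hW v hv) (fun g => c g v)
        (fun g => hcS g v hv) (hc' v)
      exact ⟨x, fun _ => hxW, hx⟩
  choose x hxW hx using key
  exact ⟨x, fun v hv => hxW v hv, fun g => funext fun v => hx v g⟩

/-- `H¹(G, J) = 0` if all `H¹(G, B v) = 0` and `H¹(G, W v) = 0` for almost all `v` -/
theorem h1Trivial_J [Finite G] (T₀ : Set V) (hT₀ : T₀.Finite) (hB : ∀ v, H1Trivial G (B v))
    (hW : ∀ v, v ∉ T₀ → H1Trivial G (W v)) : H1Trivial G (J W) := by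
  classical
  rw [StableSub.h1Trivial_iff]
  intro c hcS hc
  have hc' := (isCocycle₁_pi_iff B).1 hc
  set T : Set V := T₀ ∪ ⋃ g : G, {v | c g v ∉ W v} with hT
  have hTfin : T.Finite := hT₀.union (Set.finite_iUnion fun g => hcS g)
  have key : ∀ v, ∃ x : B v, (v ∉ T → x ∈ W v) ∧ ∀ g, g • x - x = c g v := by
    intro v
    by_cases hv : v ∈ T
    · obtain ⟨x, hx⟩ := hB v _ (hc' v)
      exact ⟨x, fun h => absurd hv h, hx⟩
    · have hv0 : v ∉ T₀ := fun h => hv (Or.inl h)
      have hcW : ∀ g, c g v ∈ W v := fun g => by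
        by_contra h
        exact hv (Or.inr (Set.mem_iUnion.2 ⟨g, h⟩))
      obtain ⟨x, hxW, hx⟩ := (StableSub.h1Trivial_iff (W v)).1 (hW v hv0) (fun g => c g v)
        hcW (hc' v)
      exact ⟨x, fun _ => hxW, hx⟩
  choose x hxW hx using key
  exact ⟨x, mem_J_of_forall_not_mem W hTfin hxW, fun g => funext fun v => hx v g⟩

/-! #### `Ĥ⁰` -/

variable [Fintype G]

/-- an element of `J_T` fixed by `G` is a norm from `J_T` iff its components at `v ∈ T` are norms,
provided `Ĥ⁰(G, W v) = 0` for `v ∉ T` -/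
theorem exists_normMap_eq_JT_iff (T : Set V) (hW : ∀ v, v ∉ T → H0Trivial G (W v))
    {x : ∀ v, B v} (hx : x ∈ JT W T) (hfix : x ∈ fixed G (∀ v, B v)) :
    (∃ y ∈ JT W T, normMap G (∀ v, B v) y = x) ↔
      ∀ v, v ∈ T → ∃ b : B v, normMap G (B v) b = x v := by
  classical
  constructor
  · rintro ⟨y, -, rfl⟩ v -
    exact ⟨y v, (normMap_pi_apply B y v).symm⟩
  · intro h
    have key : ∀ v, ∃ b : B v, (v ∉ T → b ∈ W v) ∧ normMap G (B v) b = x v := by
      intro v
      by_cases hv : v ∈ T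
      · obtain ⟨b, hb⟩ := h v hv
        exact ⟨b, fun h => absurd hv h, hb⟩
      · obtain ⟨b, hbW, hb⟩ := (StableSub.h0Trivial_iff (W v)).1 (hW v hv) (x v) (hx v hv)
          ((mem_fixed_pi B).1 hfix v)
        exact ⟨b, fun _ => hbW, hb⟩
    choose b hbW hb using key
    exact ⟨b, fun v hv => hbW v hv, funext fun v => by rw [normMap_pi_apply, hb]⟩

/-- **an idele is a norm iff it is a local norm everywhere**: an element of `J` fixed by `G` is a
norm from `J` iff all its components are norms, provided `Ĥ⁰(G, W v) = 0` for almost all `v` -/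
theorem exists_normMap_eq_J_iff (T₀ : Set V) (hT₀ : T₀.Finite)
    (hW : ∀ v, v ∉ T₀ → H0Trivial G (W v))
    {x : ∀ v, B v} (hx : x ∈ J W) (hfix : x ∈ fixed G (∀ v, B v)) :
    (∃ y ∈ J W, normMap G (∀ v, B v) y = x) ↔ ∀ v, ∃ b : B v, normMap G (B v) b = x v := by
  classical
  constructor
  · rintro ⟨y, -, rfl⟩ v
    exact ⟨y v, (normMap_pi_apply B y v).symm⟩
  · intro h
    set T : Set V := T₀ ∪ {v | x v ∉ W v} with hT
    have hTfin : T.Finite := hT₀.union hx
    have hxT : x ∈ JT W T := fun v hv => by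
      by_contra h'
      exact hv (Or.inr h')
    obtain ⟨y, hy, hyx⟩ := (exists_normMap_eq_JT_iff W T
      (fun v hv => hW v fun h' => hv (Or.inl h')) hxT hfix).2 fun v _ => h v
    exact ⟨y, JT_le_J W hTfin hy, hyx⟩

theorem h0Trivial_JT (T : Set V) (hB : ∀ v, v ∈ T → H0Trivial G (B v))
    (hW : ∀ v, v ∉ T → H0Trivial G (W v)) : H0Trivial G (JT W T) := by
  rw [StableSub.h0Trivial_iff]
  intro x hx hfix
  exact (exists_normMap_eq_JT_iff W T hW hx hfix).2 fun v hv =>
    hB v hv (x v) ((mem_fixed_pi B).1 hfix v)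

theorem h0Trivial_J (T₀ : Set V) (hT₀ : T₀.Finite) (hB : ∀ v, H0Trivial G (B v))
    (hW : ∀ v, v ∉ T₀ → H0Trivial G (W v)) : H0Trivial G (J W) := by
  rw [StableSub.h0Trivial_iff]
  intro x hx hfix
  exact (exists_normMap_eq_J_iff W T₀ hT₀ hW hx hfix).2 fun v =>
    hB v (x v) ((mem_fixed_pi B).1 hfix v)

/-! #### `Ĥ⁻¹` -/

/-- an element of `J_T` of norm `0` lies in `I_G J_T` iff its components at `v ∈ T` lie in
`I_G (B v)`, provided `Ĥ⁻¹(G, W v) = 0` for `v ∉ T` -/
theorem mem_aug_JT_iff (T : Set V) (hW : ∀ v, v ∉ T → Hm1Trivial G (W v))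
    {x : ∀ v, B v} (hx : x ∈ JT W T) (hN : normMap G (∀ v, B v) x = 0) :
    (∃ a : G → ∀ v, B v, (∀ g, a g ∈ JT W T) ∧ x = ∑ g : G, (g • a g - a g)) ↔
      ∀ v, v ∈ T → x v ∈ aug G (B v) := by
  classical
  constructor
  · rintro ⟨a, -, rfl⟩ v -
    exact (mem_aug_pi B).1 (mem_aug_iff.2 ⟨a, rfl⟩) v
  · intro h
    have key : ∀ v, ∃ a : G → B v, (v ∉ T → ∀ g, a g ∈ W v) ∧
        x v = ∑ g : G, (g • a g - a g) := by
      intro v
      by_cases hv : v ∈ T
      · obtain ⟨a, ha⟩ := mem_aug_iff.1 (h v hv)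
        exact ⟨a, fun h => absurd hv h, ha⟩
      · have hNv : normMap G (B v) (x v) = 0 := by
          rw [← normMap_pi_apply, hN]
          rfl
        obtain ⟨a, haW, ha⟩ := (StableSub.hm1Trivial_iff (W v)).1 (hW v hv) (x v) (hx v hv) hNv
        exact ⟨a, fun _ => haW, ha⟩
    choose a haW ha using key
    refine ⟨fun g v => a v g, fun g v hv => haW v hv g, funext fun v => ?_⟩
    rw [ha v, Finset.sum_apply]
    rfl

/-- an element of `J` of norm `0` lies in `I_G J` iff all its components lie in `I_G (B v)`,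
provided `Ĥ⁻¹(G, W v) = 0` for almost all `v` -/
theorem mem_aug_J_iff (T₀ : Set V) (hT₀ : T₀.Finite) (hW : ∀ v, v ∉ T₀ → Hm1Trivial G (W v))
    {x : ∀ v, B v} (hx : x ∈ J W) (hN : normMap G (∀ v, B v) x = 0) :
    (∃ a : G → ∀ v, B v, (∀ g, a g ∈ J W) ∧ x = ∑ g : G, (g • a g - a g)) ↔
      ∀ v, x v ∈ aug G (B v) := by
  classical
  constructor
  · rintro ⟨a, -, rfl⟩ v
    exact (mem_aug_pi B).1 (mem_aug_iff.2 ⟨a, rfl⟩) v
  · intro h
    set T : Set V := T₀ ∪ {v | x v ∉ W v} with hT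
    have hTfin : T.Finite := hT₀.union hx
    have hxT : x ∈ JT W T := fun v hv => by
      by_contra h'
      exact hv (Or.inr h')
    obtain ⟨a, haT, ha⟩ := (mem_aug_JT_iff W T
      (fun v hv => hW v fun h' => hv (Or.inl h')) hxT hN).2 fun v _ => h v
    exact ⟨a, fun g => JT_le_J W hTfin (haT g), ha⟩

theorem hm1Trivial_JT (T : Set V) (hB : ∀ v, v ∈ T → Hm1Trivial G (B v))
    (hW : ∀ v, v ∉ T → Hm1Trivial G (W v)) : Hm1Trivial G (JT W T) := by
  rw [StableSub.hm1Trivial_iff]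
  intro x hx hN
  refine (mem_aug_JT_iff W T hW hx hN).2 fun v hv => hB v hv (x v) ?_
  rw [← normMap_pi_apply, hN]
  rfl

theorem hm1Trivial_J (T₀ : Set V) (hT₀ : T₀.Finite) (hB : ∀ v, Hm1Trivial G (B v))
    (hW : ∀ v, v ∉ T₀ → Hm1Trivial G (W v)) : Hm1Trivial G (J W) := by
  rw [StableSub.hm1Trivial_iff]
  intro x hx hN
  refine (mem_aug_J_iff W T₀ hT₀ hW hx hN).2 fun v => hB v (x v) ?_
  rw [← normMap_pi_apply, hN]
  rfl

end Restricted

end Fermat.Agent.S55.Idele56
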